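import Fermat.Agent.MU.S56.W4.Defs
import Fermat.Agent.S56.W1.Cocycle.DualTensor
import Fermat.Agent.MU.S56.W3.SO.Tangent.T1
import Fermat.Agent.MU.S56.W4.Tri
import Fermat.Agent.MU.Lib.FFL.FreeFinal

section MergeWrap_S56_W4_Normal_Det -- from S56/W4/Normal/Det.lean

set_option autoImplicit false

namespace Fermat.Agent.S56.W4

open Fermat.Agent.F4 ExtCitation Fermat.Agent.S56.SO
open scoped TensorProduct

variable {k : Type} [Field k]

/-- `det ρ σ = a` in `k[ε]` for a deformation with cyclotomic determinant. -/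
theorem tp_det_def (p : ℕ) [Fact p.Prime] (hpk : (p : k) = 0)
    (ρ : GaloisRepAdic (DualNumber k)) (hdet : ρ.DetIsCyclotomic p) (σ : GQ) (a : ℕ)
    (ha : ∀ μ : AlgebraicClosure ℚ, μ ^ p ^ 1 = 1 → σ μ = μ ^ a) :
    LinearMap.det (ρ.ρ σ) = (a : DualNumber k) := by
  have h1 := hdet.2 1 σ a ha
  rw [soT1_natCast_eq_zero p hpk, Ideal.span_singleton_zero, Ideal.mem_bot, sub_eq_zero] at h1
  exact h1

/-- `det ρbar σ = a` from the deformation. -/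
theorem tp_det_resid (p : ℕ) [Fact p.Prime] (hpk : (p : k) = 0)
    (ρbar : ResidualGaloisRep k) (c : GQ → ad0 ρbar) (ρ : GaloisRepAdic (DualNumber k))
    (hdef : IsDefOf ρbar c ρ) (hdet : ρ.DetIsCyclotomic p) (σ : GQ) (a : ℕ)
    (ha : ∀ μ : AlgebraicClosure ℚ, μ ^ p ^ 1 = 1 → σ μ = μ ^ a) :
    LinearMap.det (ρbar.ρ σ) = (a : k) := by
  obtain ⟨e, he⟩ := hdef
  have h1 := tp_det_def p hpk ρ hdet σ a ha
  have h2 : ρ.ρ σ = (e : (DualNumber k ⊗[k] ρbar.V) →ₗ[DualNumber k] ρ.V) ∘ₗ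
      defEnd ρbar (c σ : ↥(ad0Sub ρbar)).1 σ ∘ₗ
      (e.symm : ρ.V →ₗ[DualNumber k] (DualNumber k ⊗[k] ρbar.V)) := by
    apply LinearMap.ext
    intro v
    show ρ.ρ σ v = e (defEnd ρbar (c σ : ↥(ad0Sub ρbar)).1 σ (e.symm v))
    rw [← he, e.apply_symm_apply]
  rw [h2, LinearMap.det_conj] at h1
  have htr : LinearMap.trace k ρbar.V (c σ : ↥(ad0Sub ρbar)).1 = 0 :=
    LinearMap.mem_ker.mp (c σ : ↥(ad0Sub ρbar)).2
  have h3 := w1c_det ρbar.finrank_eq (c σ : ↥(ad0Sub ρbar)).1 (ρbar.ρ σ)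
  rw [htr, map_zero, mul_zero, add_zero, one_mul] at h3
  have h4 : LinearMap.det (defEnd ρbar (c σ : ↥(ad0Sub ρbar)).1 σ) =
      algebraMap k (DualNumber k) (LinearMap.det (ρbar.ρ σ)) := h3
  rw [h4] at h1
  have h5 : ((a : ℕ) : DualNumber k) = algebraMap k (DualNumber k) (a : k) := by
    rw [map_natCast]
  rw [h5] at h1
  exact (algebraMap k (DualNumber k)).injective h1

/-- The determinant of an endomorphism of the plane in terms of its entries. -/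
theorem tp_det_entries {V : Type} [AddCommGroup V] [Module k V] (w : Module.Basis (Fin 2) k V)
    (f : Module.End k V) :
    LinearMap.det f = w.repr (f (w 0)) 0 * w.repr (f (w 1)) 1
      - w.repr (f (w 1)) 0 * w.repr (f (w 0)) 1 := by
  rw [← LinearMap.det_toMatrix w, Matrix.det_fin_two, LinearMap.toMatrix_apply,
    LinearMap.toMatrix_apply, LinearMap.toMatrix_apply, LinearMap.toMatrix_apply]

/-- Inertia acts on the line `k · w 0` through the cyclotomic character. -/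
theorem tp_inertia_line (p : ℕ) [Fact p.Prime] (hpk : (p : k) = 0)
    (ρbar : ResidualGaloisRep k) (P : ValuationSubring (AlgebraicClosure ℚ))
    (w : Module.Basis (Fin 2) k ρbar.V) (hw : FlTri ρbar.ρ P w)
    (c : GQ → ad0 ρbar) (ρ : GaloisRepAdic (DualNumber k))
    (hdef : IsDefOf ρbar c ρ) (hdet : ρ.DetIsCyclotomic p) {σ : GQ}
    (hσ : σ ∈ P.inertiaSubgroupIn ℚ) (a : ℕ)
    (ha : ∀ μ : AlgebraicClosure ℚ, μ ^ p ^ 1 = 1 → σ μ = μ ^ a) :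
    ρbar.ρ σ (w 0) = (a : k) • w 0 := by
  have hD := Fermat.Agent.S59.SO.inertia_le_decomposition hσ
  have h1 := tp_det_resid p hpk ρbar c ρ hdef hdet σ a ha
  rw [tp_det_entries w, hw.dec σ hD, hw.inert σ hσ, mul_one, mul_zero, sub_zero] at h1
  have h2 := Fermat.Agent.S59.SO.eq_smul_of_repr_one w (hw.dec σ hD)
  rw [h1] at h2
  exact h2

end Fermat.Agent.S56.W4
end MergeWrap_S56_W4_Normal_Det

section MergeWrap_S56_W4_Normal_Core -- from S56/W4/Normal/Core.lean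

set_option autoImplicit false

namespace Fermat.Agent.S56.W4

open Fermat.Agent.F4 ExtCitation Fermat.Agent.S56.SO Fermat.Agent.FFL IsLocalRing
open scoped TensorProduct

variable {k : Type} [Field k]

/-- elements of the maximal ideal of `k[ε]` have constant term `0`. -/
theorem tp_fst_eq_zero_of_mem {t : DualNumber k} (ht : t ∈ maximalIdeal (DualNumber k)) :
    TrivSqZeroExt.fst t = 0 := by
  by_contra h
  have h1 : IsUnit t := by
    rw [TrivSqZeroExt.isUnit_iff_isUnit_fst]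
    exact isUnit_iff_ne_zero.mpr h
  exact (IsLocalRing.mem_maximalIdeal t).mp ht h1

variable {V : Type} [AddCommGroup V] [Module k V] {M : Type} [AddCommGroup M]
  [Module (DualNumber k) M]

/-- elements of `𝔪 M` have constant part `0`. -/
theorem tp_redFst_eq_zero_of_mem (e : (DualNumber k ⊗[k] V) ≃ₗ[DualNumber k] M) {v : M}
    (hv : v ∈ maximalIdeal (DualNumber k) • (⊤ : Submodule (DualNumber k) M)) :
    redFst (e.symm v) = 0 := by
  refine Submodule.smul_induction_on hv ?_ ?_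
  · intro t ht x _
    rw [map_smul, redFst_smul, tp_fst_eq_zero_of_mem ht, zero_smul]
  · intro x y hx hy
    rw [map_add, map_add, hx, hy, add_zero]

section Main

variable [Finite k]

/-- **The line of a flat deformation.** -/
theorem tp_core (p : ℕ) [Fact p.Prime] (hp2 : p ≠ 2) (hpk : (p : k) = 0)
    (ρbar : ResidualGaloisRep k)
    (P : ValuationSubring (AlgebraicClosure ℚ)) (hP : P.LiesOverPrime p)
    (w : Module.Basis (Fin 2) k ρbar.V) (hw : FlTri ρbar.ρ P w)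
    (c : GQ → ad0 ρbar) (ρ : GaloisRepAdic (DualNumber k))
    (e : (DualNumber k ⊗[k] ρbar.V) ≃ₗ[DualNumber k] ρ.V)
    (he : ∀ (σ : GQ) (x : DualNumber k ⊗[k] ρbar.V),
      ρ.ρ σ (e x) = e (defEnd ρbar (c σ : ↥(ad0Sub ρbar)).1 σ x))
    (hdet : ρ.DetIsCyclotomic p) (hfl : ρ.IsFlatAt p) :
    ∃ ℓ'' : DualNumber k ⊗[k] ρbar.V, redFst ℓ'' = w 0 ∧ e ℓ'' ∈ coinvKer P ρ ∧
      ∀ y : DualNumber k ⊗[k] ρbar.V, e y ∈ coinvKer P ρ → ∃ t : DualNumber k, y = t • ℓ'' := by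
  classical
  have hp : p.Prime := Fact.out
  have hchar : CharP k p := (CharP.charP_iff_prime_eq_zero hp).mpr hpk
  have hfinA : Finite (DualNumber k) := inferInstanceAs (Finite (k × k))
  have hdef : IsDefOf ρbar c ρ := ⟨e, he⟩
  -- the constant part of the elements of `U` is on the line
  have hU1 : ∀ v ∈ coinvKer P ρ, w.repr (redFst (e.symm v)) 1 = 0 := by
    intro v hv
    refine Submodule.span_induction (p := fun v _ => w.repr (redFst (e.symm v)) 1 = 0)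
      ?_ ?_ ?_ ?_ hv
    · rintro y ⟨σ, hσ, v, rfl⟩
      obtain ⟨x, rfl⟩ := e.surjective v
      rw [he, ← map_sub, e.symm_apply_apply, map_sub, redFst_defEnd]
      exact coinvBar_le_of_flTri hw _ (sub_mem_coinvBar P ρbar hσ (redFst x))
    · rw [map_zero, map_zero, map_zero]
      rfl
    · intro y z _ _ hy hz
      rw [map_add, map_add, map_add, Finsupp.add_apply, hy, hz, add_zero]
    · intro t y _ hy
      rw [map_smul, redFst_smul, map_smul, Finsupp.smul_apply, hy, smul_zero]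
  -- `h1`
  have h1 : coinvKer P ρ ⊔ maximalIdeal (DualNumber k) • (⊤ : Submodule (DualNumber k) ρ.V)
      ≠ ⊤ := by
    intro htop
    have hmem : e ((1 : DualNumber k) ⊗ₜ[k] w 1) ∈
        coinvKer P ρ ⊔ maximalIdeal (DualNumber k) • (⊤ : Submodule (DualNumber k) ρ.V) := by
      rw [htop]
      exact Submodule.mem_top
    obtain ⟨u, hu, v, hv, huv⟩ := Submodule.mem_sup.mp hmem
    have h3 := congrArg (fun x => w.repr (redFst (e.symm x)) 1) huv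
    simp only [map_add, Finsupp.add_apply, e.symm_apply_apply, redFst_one_tmul] at h3
    rw [hU1 u hu, tp_redFst_eq_zero_of_mem e hv, map_zero, Finsupp.zero_apply, add_zero,
      Fermat.Agent.S59.SO.repr_self_one_one] at h3
    exact zero_ne_one h3
  -- the element `σ₀` of inertia
  obtain ⟨σ₀, hσ₀, hne⟩ := Fermat.Agent.MultRed.exists_inertia_cycExp_ne_one p hp2 P hP
  obtain ⟨a₀, ha₀⟩ := Fermat.Agent.S59.SOArith.exists_cycExp p σ₀ 1
  have hu : (a₀ : k) - 1 ≠ 0 := by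
    intro h
    apply hne a₀ ha₀
    have h' : (((a₀ : ℤ) - 1 : ℤ) : k) = 0 := by push_cast; exact h
    exact (CharP.intCast_eq_zero_iff k p _).mp h'
  have hρ0 : ρbar.ρ σ₀ (w 0) = (a₀ : k) • w 0 :=
    tp_inertia_line p hpk ρbar P w hw c ρ hdef hdet hσ₀ a₀ ha₀
  set ℓ' : DualNumber k ⊗[k] ρbar.V :=
    defEnd ρbar (c σ₀ : ↥(ad0Sub ρbar)).1 σ₀ ((1 : DualNumber k) ⊗ₜ[k] w 0)
      - (1 : DualNumber k) ⊗ₜ[k] w 0 with hℓ'
  have hℓU : e ℓ' ∈ coinvKer P ρ := by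
    have h3 := sub_mem_coinvKer P ρ hσ₀ (e ((1 : DualNumber k) ⊗ₜ[k] w 0))
    rw [he] at h3
    rw [hℓ', map_sub]
    exact h3
  have hℓ0 : redFst ℓ' = ((a₀ : k) - 1) • w 0 := by
    rw [hℓ', map_sub, redFst_defEnd, redFst_one_tmul, hρ0, sub_smul, one_smul]
  -- `h2`
  have h2 : ¬ coinvKer P ρ ≤
      maximalIdeal (DualNumber k) • (⊤ : Submodule (DualNumber k) ρ.V) := by
    intro hle
    have h3 := tp_redFst_eq_zero_of_mem e (hle hℓU)
    rw [e.symm_apply_apply, hℓ0] at h3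
    exact (smul_ne_zero hu (w.ne_zero 0)) h3
  obtain ⟨b, hb⟩ := exists_basis_coinvKer_of_odd hp hp2 hP ρ hfl h1 h2
  -- `ℓ'` generates
  have hℓL : e ℓ' ∈ Submodule.span (DualNumber k) {b 0} := by
    rw [← hb]
    exact hℓU
  obtain ⟨t, ht⟩ := Submodule.mem_span_singleton.mp hℓL
  have ht0 : TrivSqZeroExt.fst t ≠ 0 := by
    intro h0
    have h3 : redFst ℓ' = 0 := by
      have h4 : ℓ' = t • e.symm (b 0) := by
        rw [← map_smul, ht, e.symm_apply_apply]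
      rw [h4, redFst_smul, h0, zero_smul]
    rw [hℓ0] at h3
    exact (smul_ne_zero hu (w.ne_zero 0)) h3
  have htu : IsUnit t := by
    rw [TrivSqZeroExt.isUnit_iff_isUnit_fst]
    exact isUnit_iff_ne_zero.mpr ht0
  obtain ⟨t', ht'⟩ := htu.exists_left_inv
  have hgen : ∀ y : DualNumber k ⊗[k] ρbar.V, e y ∈ coinvKer P ρ →
      ∃ s : DualNumber k, y = s • ℓ' := by
    intro y hy
    rw [hb] at hy
    obtain ⟨s, hs⟩ := Submodule.mem_span_singleton.mp hy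
    refine ⟨s * t', ?_⟩
    apply e.injective
    rw [map_smul, ← ht, smul_smul, mul_assoc, ht', mul_one, hs]
  -- the normalised generator
  refine ⟨(TrivSqZeroExt.inl ((a₀ : k) - 1)⁻¹ : DualNumber k) • ℓ', ?_, ?_, ?_⟩
  · rw [redFst_smul, TrivSqZeroExt.fst_inl, hℓ0, smul_smul, inv_mul_cancel₀ hu, one_smul]
  · rw [map_smul]
    exact Submodule.smul_mem _ _ hℓU
  · intro y hy
    obtain ⟨s, hs⟩ := hgen y hy
    refine ⟨s * (TrivSqZeroExt.inl ((a₀ : k) - 1) : DualNumber k), ?_⟩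
    rw [smul_smul, mul_assoc, ← TrivSqZeroExt.inl_mul, mul_inv_cancel₀ hu, TrivSqZeroExt.inl_one,
      mul_one]
    exact hs

end Main

end Fermat.Agent.S56.W4
end MergeWrap_S56_W4_Normal_Core

section MergeWrap_S56_W4_Normal_Step -- from S56/W4/Normal/Step.lean

set_option autoImplicit false

namespace Fermat.Agent.S56.W4

open Fermat.Agent.F4 ExtCitation Fermat.Agent.S56.SO Fermat.Agent.FFL IsLocalRing
open scoped TensorProduct

variable {k : Type} [Field k]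

theorem tp_inv_apply (ρbar : ResidualGaloisRep k) (σ : GQ) (v : ρbar.V) :
    ρbar.ρ σ⁻¹ (ρbar.ρ σ v) = v := by
  have h5 : ρbar.ρ σ⁻¹ * ρbar.ρ σ = 1 := by rw [← map_mul, inv_mul_cancel, map_one]
  exact LinearMap.congr_fun h5 v

/-- the value of the modified cocycle. -/
theorem tp_hval (ρbar : ResidualGaloisRep k) (c : GQ → ad0 ρbar) (σ : GQ)
    (m : ad0 ρbar) (m₁ : Module.End k ρbar.V) (τ : k)
    (hm : (m : ↥(ad0Sub ρbar)).1 = m₁ - τ • (1 : Module.End k ρbar.V)) (v : ρbar.V) :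
    ((c σ + ((ad0 ρbar).ρ σ m - m) : ad0 ρbar) : ↥(ad0Sub ρbar)).1 (ρbar.ρ σ v) =
      (c σ : ↥(ad0Sub ρbar)).1 (ρbar.ρ σ v) + ρbar.ρ σ (m₁ v) - m₁ (ρbar.ρ σ v) := by
  have h5 : ((c σ + ((ad0 ρbar).ρ σ m - m) : ad0 ρbar) : ↥(ad0Sub ρbar)).1 =
      (c σ : ↥(ad0Sub ρbar)).1 + (ρbar.ρ σ * ((m : ↥(ad0Sub ρbar)).1
          * ρbar.ρ σ⁻¹) - (m : ↥(ad0Sub ρbar)).1) := rfl
  rw [h5, hm]
  simp only [LinearMap.add_apply, LinearMap.sub_apply, Module.End.mul_apply,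
    LinearMap.smul_apply, Module.End.one_apply, tp_inv_apply, map_sub, map_smul]
  abel

/-- the decomposition group: the modified cocycle is triangular. -/
theorem tp_dec (ρbar : ResidualGaloisRep k) (w : Module.Basis (Fin 2) k ρbar.V)
    (c : GQ → ad0 ρbar) (σ : GQ)
    (ℓ'' : DualNumber k ⊗[k] ρbar.V) (hℓ0 : redFst ℓ'' = w 0)
    (x : DualNumber k) (hx : defEnd ρbar (c σ : ↥(ad0Sub ρbar)).1 σ ℓ'' = x • ℓ'')
    (m : ad0 ρbar) (m₁ : Module.End k ρbar.V) (τ : k)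
    (hm : (m : ↥(ad0Sub ρbar)).1 = m₁ - τ • (1 : Module.End k ρbar.V))
    (hm10 : m₁ (w 0) = redSnd ℓ'') :
    ρbar.ρ σ (w 0) = TrivSqZeroExt.fst x • w 0 ∧ TrivSqZeroExt.fst x ≠ 0 ∧
    ((c σ + ((ad0 ρbar).ρ σ m - m) : ad0 ρbar) : ↥(ad0Sub ρbar)).1 (w 0)
      = (TrivSqZeroExt.snd x / TrivSqZeroExt.fst x) • w 0 := by
  have hr0 : ρbar.ρ σ (w 0) = TrivSqZeroExt.fst x • w 0 := by
    have f0 := congrArg redFst hx
    rw [redFst_defEnd, redFst_smul, hℓ0] at f0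
    exact f0
  have f1 : ρbar.ρ σ (redSnd ℓ'') + (c σ : ↥(ad0Sub ρbar)).1 (ρbar.ρ σ (w 0))
      = TrivSqZeroExt.fst x • redSnd ℓ'' + TrivSqZeroExt.snd x • w 0 := by
    have f1 := congrArg redSnd hx
    rw [redSnd_defEnd, redSnd_smul, hℓ0] at f1
    exact f1
  have hx0 : TrivSqZeroExt.fst x ≠ 0 := by
    intro h0
    rw [h0, zero_smul] at hr0
    have h5 := tp_inv_apply ρbar σ (w 0)
    rw [hr0, map_zero] at h5
    exact w.ne_zero 0 h5.symm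
  refine ⟨hr0, hx0, ?_⟩
  have hn0 : ((c σ + ((ad0 ρbar).ρ σ m - m) : ad0 ρbar) : ↥(ad0Sub ρbar)).1 (ρbar.ρ σ (w 0))
      = TrivSqZeroExt.snd x • w 0 := by
    have e3 : m₁ (ρbar.ρ σ (w 0)) = TrivSqZeroExt.fst x • redSnd ℓ'' := by
      rw [hr0, map_smul, hm10]
    have e4 : (c σ : ↥(ad0Sub ρbar)).1 (ρbar.ρ σ (w 0)) + ρbar.ρ σ (redSnd ℓ'')
        = TrivSqZeroExt.fst x • redSnd ℓ'' + TrivSqZeroExt.snd x • w 0 := by
      rw [add_comm]; exact f1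
    rw [tp_hval ρbar c σ m m₁ τ hm, hm10, e3, e4]
    abel
  rw [hr0, map_smul] at hn0
  rw [div_eq_inv_mul, mul_smul, ← hn0, smul_smul, inv_mul_cancel₀ hx0, one_smul]

/-- inertia: the second column of the modified cocycle. -/
theorem tp_inert (ρbar : ResidualGaloisRep k) (w : Module.Basis (Fin 2) k ρbar.V)
    (c : GQ → ad0 ρbar) (σ : GQ)
    (ℓ'' : DualNumber k ⊗[k] ρbar.V) (hℓ0 : redFst ℓ'' = w 0)
    (t : DualNumber k)
    (ht : defEnd ρbar (c σ : ↥(ad0Sub ρbar)).1 σ ((1 : DualNumber k) ⊗ₜ[k] w 1)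
      - (1 : DualNumber k) ⊗ₜ[k] w 1 = t • ℓ'')
    (m : ad0 ρbar) (m₁ : Module.End k ρbar.V) (τ : k)
    (hm : (m : ↥(ad0Sub ρbar)).1 = m₁ - τ • (1 : Module.End k ρbar.V))
    (hm10 : m₁ (w 0) = redSnd ℓ'') (hm11 : m₁ (w 1) = 0) :
    ρbar.ρ σ (w 1) = w 1 + TrivSqZeroExt.fst t • w 0 ∧
    ((c σ + ((ad0 ρbar).ρ σ m - m) : ad0 ρbar) : ↥(ad0Sub ρbar)).1 (w 1)
      = TrivSqZeroExt.snd t • w 0 - TrivSqZeroExt.fst t •
        ((c σ + ((ad0 ρbar).ρ σ m - m) : ad0 ρbar) : ↥(ad0Sub ρbar)).1 (w 0) := by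
  have k0 := congrArg redFst ht
  have k1 := congrArg redSnd ht
  rw [map_sub, redFst_defEnd, redFst_smul, redFst_one_tmul, hℓ0] at k0
  rw [map_sub, redSnd_defEnd, redSnd_smul, redSnd_one_tmul, redFst_one_tmul, map_zero, zero_add,
    sub_zero, hℓ0] at k1
  have hr1 : ρbar.ρ σ (w 1) = w 1 + TrivSqZeroExt.fst t • w 0 := by
    rw [← k0]; abel
  refine ⟨hr1, ?_⟩
  have hn1 : ((c σ + ((ad0 ρbar).ρ σ m - m) : ad0 ρbar) : ↥(ad0Sub ρbar)).1 (ρbar.ρ σ (w 1))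
      = TrivSqZeroExt.snd t • w 0 := by
    have e3 : m₁ (ρbar.ρ σ (w 1)) = TrivSqZeroExt.fst t • redSnd ℓ'' := by
      rw [hr1, map_add, map_smul, hm10, hm11, zero_add]
    rw [tp_hval ρbar c σ m m₁ τ hm, hm11, map_zero, add_zero, e3, k1]
    abel
  rw [hr1, map_add, map_smul] at hn1
  rw [← hn1]
  abel

end Fermat.Agent.S56.W4
end MergeWrap_S56_W4_Normal_Step

section MergeWrap_S56_W4_Normal_Peu -- from S56/W4/Normal/Peu.lean

set_option autoImplicit false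

namespace Fermat.Agent.S56.W4

open Fermat.Agent.F4 ExtCitation Fermat.Agent.S56.SO Fermat.Agent.FFL IsLocalRing
open scoped TensorProduct

variable {k : Type} [Field k]

theorem tp_zeta_pow_val_nsmul {p : ℕ} [Fact p.Prime] {ζ : AlgebraicClosure ℚ} (hζ : ζ ^ p = 1)
    (a : ℕ) (z : ZMod p) : ζ ^ (a • z).val = (ζ ^ z.val) ^ a := by
  induction a with
  | zero => rw [zero_smul, ZMod.val_zero, pow_zero, pow_zero]
  | succ a ih => rw [succ_nsmul, zeta_pow_val_add hζ, ih, pow_succ]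

/-- **PEU for the line.**  `Λ` is an additive coordinate on `k[ε] ⊗ V` which on the line
`k[ε] · ℓ''` is `s • ℓ'' ↦ lam s`. -/
theorem tp_peu_apply [Finite k] (p : ℕ) [Fact p.Prime]
    (P : ValuationSubring (AlgebraicClosure ℚ))
    (ζ : AlgebraicClosure ℚ) (hζ : ζ ^ p = 1) (hpeu : PeuFlat p P)
    (ρbar : ResidualGaloisRep k) (w : Module.Basis (Fin 2) k ρbar.V)
    (c : GQ → ad0 ρbar) (ρ : GaloisRepAdic (DualNumber k))
    (e : (DualNumber k ⊗[k] ρbar.V) ≃ₗ[DualNumber k] ρ.V)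
    (he : ∀ (σ : GQ) (x : DualNumber k ⊗[k] ρbar.V),
      ρ.ρ σ (e x) = e (defEnd ρbar (c σ : ↥(ad0Sub ρbar)).1 σ x))
    (hfl : ρ.IsFlatAt p)
    (ℓ'' : DualNumber k ⊗[k] ρbar.V)
    (hgen : ∀ y : DualNumber k ⊗[k] ρbar.V, e y ∈ coinvKer P ρ → ∃ t : DualNumber k, y = t • ℓ'')
    (Λ : (DualNumber k ⊗[k] ρbar.V) → k) (lam : DualNumber k → k)
    (hΛadd : ∀ x y, Λ (x + y) = Λ x + Λ y)
    (hΛ : ∀ s : DualNumber k, Λ (s • ℓ'') = lam s)
    (hlam : ∀ (s : DualNumber k) (n : ℕ), lam (s * (n : DualNumber k)) = n • lam s)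
    (hcyc : ∀ σ ∈ P.inertiaSubgroupIn ℚ, ∃ a : ℕ, σ ζ = ζ ^ a ∧
      defEnd ρbar (c σ : ↥(ad0Sub ρbar)).1 σ ℓ'' = (a : DualNumber k) • ℓ'')
    (g : GQ → k)
    (hg : ∀ σ ∈ P.inertiaSubgroupIn ℚ, ∀ t : DualNumber k,
      defEnd ρbar (c σ : ↥(ad0Sub ρbar)).1 σ ((1 : DualNumber k) ⊗ₜ[k] w 1)
        - (1 : DualNumber k) ⊗ₜ[k] w 1 = t • ℓ'' → g σ = lam t) :
    IsPeu p P ζ g := by
  intro φ
  have hfinA : Finite (DualNumber k) := inferInstanceAs (Finite (k × k))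
  have hM := isFlatGaloisModule_of_isFlatAt ρ hfl
  have h := hpeu ρ.V (fun σ v => ρ.ρ σ v) hM (coinvKer P ρ).toAddSubgroup
    (fun v => ζ ^ (φ (Λ (e.symm v))).val) ?_ ?_ ?_ ?_ (e ((1 : DualNumber k) ⊗ₜ[k] w 1))
  · obtain ⟨a, ha, ha', ha0, h1⟩ := h
    refine ⟨a, ha, ha', ha0, fun σ hσ => ?_⟩
    rw [h1 σ hσ]
    congr 4
    have h2 : e (defEnd ρbar (c σ : ↥(ad0Sub ρbar)).1 σ ((1 : DualNumber k) ⊗ₜ[k] w 1)
        - (1 : DualNumber k) ⊗ₜ[k] w 1) ∈ coinvKer P ρ := by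
      rw [map_sub, ← he]
      exact sub_mem_coinvKer P ρ hσ _
    obtain ⟨t, ht⟩ := hgen _ h2
    have h3 : e.symm (ρ.ρ σ (e ((1 : DualNumber k) ⊗ₜ[k] w 1)) - e ((1 : DualNumber k) ⊗ₜ[k] w 1))
        = t • ℓ'' := by
      rw [he, ← map_sub, e.symm_apply_apply, ht]
    show Λ (e.symm (ρ.ρ σ (e ((1 : DualNumber k) ⊗ₜ[k] w 1))
      - e ((1 : DualNumber k) ⊗ₜ[k] w 1))) = g σ
    rw [h3, hΛ, hg σ hσ t ht]
  · intro σ hσ m
    exact sub_mem_coinvKer P ρ hσ m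
  · intro x _ y _
    show ζ ^ (φ (Λ (e.symm (x + y)))).val = ζ ^ (φ (Λ (e.symm x))).val * ζ ^ (φ (Λ (e.symm y))).val
    rw [map_add, hΛadd, map_add, zeta_pow_val_add hζ]
  · intro x _
    show (ζ ^ (φ (Λ (e.symm x))).val) ^ p = 1
    rw [← pow_mul, mul_comm, pow_mul, hζ, one_pow]
  · intro σ hσ x hx
    show ζ ^ (φ (Λ (e.symm (ρ.ρ σ x)))).val = σ (ζ ^ (φ (Λ (e.symm x))).val)
    obtain ⟨a, haζ, hax⟩ := hcyc σ hσ
    obtain ⟨y, rfl⟩ := e.surjective x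
    have hx' : e y ∈ coinvKer P ρ := hx
    obtain ⟨s, rfl⟩ := hgen y hx'
    rw [he, e.symm_apply_apply, e.symm_apply_apply, map_smul, hax, smul_smul, hΛ, hΛ, hlam,
      map_nsmul, tp_zeta_pow_val_nsmul hζ, map_pow, haζ, ← pow_mul, ← pow_mul, mul_comm]

end Fermat.Agent.S56.W4
end MergeWrap_S56_W4_Normal_Peu

section MergeWrap_S56_W4_Normal_Pack -- from S56/W4/Normal/Pack.lean

set_option autoImplicit false

namespace Fermat.Agent.S56.W4

open Fermat.Agent.F4 ExtCitation Fermat.Agent.S56.SO Fermat.Agent.FFL IsLocalRing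
open scoped TensorProduct

variable {k : Type} [Field k]

/-- inertia: the modified cocycle has values in `W0 w`, and the line is acted on by a scalar
of `k`. -/
theorem tp_inert_all (ρbar : ResidualGaloisRep k) (w : Module.Basis (Fin 2) k ρbar.V)
    (c : GQ → ad0 ρbar) (σ : GQ)
    (ℓ'' : DualNumber k ⊗[k] ρbar.V) (hℓ0 : redFst ℓ'' = w 0)
    (x : DualNumber k) (hx : defEnd ρbar (c σ : ↥(ad0Sub ρbar)).1 σ ℓ'' = x • ℓ'')
    (t : DualNumber k)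
    (ht : defEnd ρbar (c σ : ↥(ad0Sub ρbar)).1 σ ((1 : DualNumber k) ⊗ₜ[k] w 1)
      - (1 : DualNumber k) ⊗ₜ[k] w 1 = t • ℓ'')
    (m : ad0 ρbar) (m₁ : Module.End k ρbar.V) (τ : k)
    (hm : (m : ↥(ad0Sub ρbar)).1 = m₁ - τ • (1 : Module.End k ρbar.V))
    (hm10 : m₁ (w 0) = redSnd ℓ'') (hm11 : m₁ (w 1) = 0) :
    ((c σ + ((ad0 ρbar).ρ σ m - m) : ad0 ρbar) : ↥(ad0Sub ρbar)).1 (w 0) = 0 ∧
    ((c σ + ((ad0 ρbar).ρ σ m - m) : ad0 ρbar) : ↥(ad0Sub ρbar)).1 (w 1)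
      = TrivSqZeroExt.snd t • w 0 ∧
    TrivSqZeroExt.snd x = 0 ∧
    ρbar.ρ σ (w 0) = TrivSqZeroExt.fst x • w 0 ∧
    ρbar.ρ σ (w 1) = w 1 + TrivSqZeroExt.fst t • w 0 := by
  obtain ⟨hr0, hx0, hc0⟩ := tp_dec ρbar w c σ ℓ'' hℓ0 x hx m m₁ τ hm hm10
  obtain ⟨hr1, hc1⟩ := tp_inert ρbar w c σ ℓ'' hℓ0 t ht m m₁ τ hm hm10 hm11
  have htr : LinearMap.trace k ρbar.V
      ((c σ + ((ad0 ρbar).ρ σ m - m) : ad0 ρbar) : ↥(ad0Sub ρbar)).1 = 0 :=
    LinearMap.mem_ker.mp ((c σ + ((ad0 ρbar).ρ σ m - m) : ad0 ρbar) : ↥(ad0Sub ρbar)).2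
  rw [soT1_trace_eq w, hc1, hc0] at htr
  simp only [map_smul, map_sub, Finsupp.smul_apply, Finsupp.sub_apply, smul_eq_mul,
    Fermat.Agent.S59.SO.repr_self_zero_zero, Fermat.Agent.S59.SO.repr_self_zero_one,
    mul_one, mul_zero, sub_zero, add_zero] at htr
  have hs : TrivSqZeroExt.snd x = 0 := by
    rcases div_eq_zero_iff.mp htr with h | h
    · exact h
    · exact absurd h hx0
  rw [htr, zero_smul] at hc0
  rw [hc0, smul_zero, sub_zero] at hc1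
  exact ⟨hc0, hc1, hs, hr0, hr1⟩

section Main

variable [Finite k]

/-- **The normal form package.** -/
theorem tp_package (p : ℕ) [Fact p.Prime] (hp2 : p ≠ 2) (hpk : (p : k) = 0)
    (ρbar : ResidualGaloisRep k)
    (P : ValuationSubring (AlgebraicClosure ℚ)) (hP : P.LiesOverPrime p)
    (w : Module.Basis (Fin 2) k ρbar.V) (hw : FlTri ρbar.ρ P w)
    (c : GQ → ad0 ρbar) (ρ : GaloisRepAdic (DualNumber k))
    (e : (DualNumber k ⊗[k] ρbar.V) ≃ₗ[DualNumber k] ρ.V)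
    (he : ∀ (σ : GQ) (x : DualNumber k ⊗[k] ρbar.V),
      ρ.ρ σ (e x) = e (defEnd ρbar (c σ : ↥(ad0Sub ρbar)).1 σ x))
    (hdet : ρ.DetIsCyclotomic p) (hfl : ρ.IsFlatAt p) :
    ∃ (m : ad0 ρbar) (ℓ'' : DualNumber k ⊗[k] ρbar.V)
      (Λ₁ : (DualNumber k ⊗[k] ρbar.V) →ₗ[k] k),
      redFst ℓ'' = w 0 ∧
      (∀ y : DualNumber k ⊗[k] ρbar.V, e y ∈ coinvKer P ρ → ∃ t : DualNumber k, y = t • ℓ'') ∧
      (∀ s : DualNumber k, Λ₁ (s • ℓ'') = TrivSqZeroExt.snd s) ∧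
      (∀ σ ∈ P.decompositionSubgroup ℚ,
        IsTri w ((c σ + ((ad0 ρbar).ρ σ m - m) : ad0 ρbar) : ↥(ad0Sub ρbar)).1) ∧
      (∀ σ ∈ P.inertiaSubgroupIn ℚ,
        ((c σ + ((ad0 ρbar).ρ σ m - m) : ad0 ρbar) : ↥(ad0Sub ρbar)).1 ∈ W0 w) ∧
      (∀ σ ∈ P.inertiaSubgroupIn ℚ, ∀ a : ℕ,
        (∀ μ : AlgebraicClosure ℚ, μ ^ p ^ 1 = 1 → σ μ = μ ^ a) →
        defEnd ρbar (c σ : ↥(ad0Sub ρbar)).1 σ ℓ'' = (a : DualNumber k) • ℓ'') ∧
      (∀ σ ∈ P.inertiaSubgroupIn ℚ, ∀ t : DualNumber k,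
        defEnd ρbar (c σ : ↥(ad0Sub ρbar)).1 σ ((1 : DualNumber k) ⊗ₜ[k] w 1)
          - (1 : DualNumber k) ⊗ₜ[k] w 1 = t • ℓ'' →
        mat w ((c σ + ((ad0 ρbar).ρ σ m - m) : ad0 ρbar) : ↥(ad0Sub ρbar)).1 0 1
            = TrivSqZeroExt.snd t ∧
          mat w (ρbar.ρ σ) 0 1 = TrivSqZeroExt.fst t) := by
  classical
  have hp : p.Prime := Fact.out
  have hchar : CharP k p := (CharP.charP_iff_prime_eq_zero hp).mpr hpk
  have h2 : (2 : k) ≠ 0 := by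
    intro h
    have h' : ((2 : ℕ) : k) = 0 := by exact_mod_cast h
    have := (CharP.cast_eq_zero_iff k p 2).mp h'
    exact hp2 ((Nat.prime_dvd_prime_iff_eq hp Nat.prime_two).mp this)
  have hdef : IsDefOf ρbar c ρ := ⟨e, he⟩
  obtain ⟨ℓ'', hℓ0, hℓU, hgen⟩ := tp_core p hp2 hpk ρbar P hP w hw c ρ e he hdet hfl
  -- the endomorphism `m`
  obtain ⟨m₁, hm10, hm11⟩ : ∃ m₁ : Module.End k ρbar.V,
      m₁ (w 0) = redSnd ℓ'' ∧ m₁ (w 1) = 0 := by
    refine ⟨w.constr k ![redSnd ℓ'', 0], ?_, ?_⟩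
    · rw [Module.Basis.constr_basis]; rfl
    · rw [Module.Basis.constr_basis]; rfl
  obtain ⟨τ, hτ⟩ : ∃ τ : k, τ = LinearMap.trace k ρbar.V m₁ / 2 := ⟨_, rfl⟩
  have hm₀tr : LinearMap.trace k ρbar.V (m₁ - τ • (1 : Module.End k ρbar.V)) = 0 := by
    rw [map_sub, map_smul, LinearMap.trace_one, ρbar.finrank_eq, hτ, smul_eq_mul]
    push_cast
    field_simp
    ring
  obtain ⟨m, hm⟩ : ∃ m : ad0 ρbar,
      (m : ↥(ad0Sub ρbar)).1 = m₁ - τ • (1 : Module.End k ρbar.V) :=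
    ⟨(⟨m₁ - τ • (1 : Module.End k ρbar.V), LinearMap.mem_ker.mpr hm₀tr⟩ : ↥(ad0Sub ρbar)), rfl⟩
  -- the action on the line
  have hline : ∀ σ ∈ P.decompositionSubgroup ℚ, ∃ x : DualNumber k,
      defEnd ρbar (c σ : ↥(ad0Sub ρbar)).1 σ ℓ'' = x • ℓ'' := by
    intro σ hσ
    apply hgen
    rw [← he]
    exact map_mem_coinvKer P ρ hσ hℓU
  have hquot : ∀ σ ∈ P.inertiaSubgroupIn ℚ, ∃ t : DualNumber k,
      defEnd ρbar (c σ : ↥(ad0Sub ρbar)).1 σ ((1 : DualNumber k) ⊗ₜ[k] w 1)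
        - (1 : DualNumber k) ⊗ₜ[k] w 1 = t • ℓ'' := by
    intro σ hσ
    apply hgen
    rw [map_sub, ← he]
    exact sub_mem_coinvKer P ρ hσ _
  refine ⟨m, ℓ'', (w.coord 0) ∘ₗ (redSnd - m₁ ∘ₗ redFst), hℓ0, hgen, ?_, ?_, ?_, ?_, ?_⟩
  · intro s
    show w.coord 0 (redSnd (s • ℓ'') - m₁ (redFst (s • ℓ''))) = TrivSqZeroExt.snd s
    rw [redSnd_smul, redFst_smul, hℓ0, map_smul, hm10, add_sub_cancel_left, map_smul,
      Module.Basis.coord_apply, Fermat.Agent.S59.SO.repr_self_zero_zero, smul_eq_mul, mul_one]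
  · intro σ hσ
    obtain ⟨x, hx⟩ := hline σ hσ
    obtain ⟨-, -, hc0⟩ := tp_dec ρbar w c σ ℓ'' hℓ0 x hx m m₁ τ hm hm10
    show w.repr (((c σ + ((ad0 ρbar).ρ σ m - m) : ad0 ρbar) : ↥(ad0Sub ρbar)).1 (w 0)) 1 = 0
    rw [hc0, map_smul, Finsupp.smul_apply, Fermat.Agent.S59.SO.repr_self_zero_one, smul_zero]
  · intro σ hσ
    obtain ⟨x, hx⟩ := hline σ (Fermat.Agent.S59.SO.inertia_le_decomposition hσ)
    obtain ⟨t, ht⟩ := hquot σ hσ
    obtain ⟨hc0, hc1, -, -, -⟩ :=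
      tp_inert_all ρbar w c σ ℓ'' hℓ0 x hx t ht m m₁ τ hm hm10 hm11
    refine mem_W0.mpr ⟨hc0, ?_⟩
    rw [hc1, map_smul, Finsupp.smul_apply, Fermat.Agent.S59.SO.repr_self_zero_one, smul_zero]
  · intro σ hσ a ha
    obtain ⟨x, hx⟩ := hline σ (Fermat.Agent.S59.SO.inertia_le_decomposition hσ)
    obtain ⟨t, ht⟩ := hquot σ hσ
    obtain ⟨-, -, hs, hr0, -⟩ :=
      tp_inert_all ρbar w c σ ℓ'' hℓ0 x hx t ht m m₁ τ hm hm10 hm11
    have h3 := tp_inertia_line p hpk ρbar P w hw c ρ hdef hdet hσ a ha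
    rw [hr0] at h3
    have h4 : TrivSqZeroExt.fst x = (a : k) := by
      have h5 := congrArg (fun v => w.repr v 0) h3
      simpa [Fermat.Agent.S59.SO.repr_self_zero_zero] using h5
    have h6 : x = (a : DualNumber k) := by
      apply TrivSqZeroExt.ext
      · rw [h4, TrivSqZeroExt.fst_natCast]
      · rw [hs, TrivSqZeroExt.snd_natCast]
    rw [hx, h6]
  · intro σ hσ t ht
    obtain ⟨x, hx⟩ := hline σ (Fermat.Agent.S59.SO.inertia_le_decomposition hσ)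
    obtain ⟨-, hc1, -, -, hr1⟩ :=
      tp_inert_all ρbar w c σ ℓ'' hℓ0 x hx t ht m m₁ τ hm hm10 hm11
    constructor
    · rw [mat_apply, hc1, map_smul, Finsupp.smul_apply, Fermat.Agent.S59.SO.repr_self_zero_zero,
        smul_eq_mul, mul_one]
    · rw [mat_apply, hr1, map_add, map_smul, Finsupp.add_apply, Finsupp.smul_apply,
        Fermat.Agent.S59.SO.repr_self_zero_zero, Fermat.Agent.S59.SO.repr_self_one_zero,
        smul_eq_mul, mul_one, zero_add]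

end Main

end Fermat.Agent.S56.W4
end MergeWrap_S56_W4_Normal_Pack
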